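import Fermat.Agent.S31.Defs
import Fermat.Agent.S41.H45.Cyc
import Fermat.Agent.S41.H45.Kummer
import Fermat.Agent.S41.H45.Fld
import Fermat.Agent.S41.H45.Trace
import Fermat.Agent.S41.H701.AbstractNE
import Fermat.Agent.Lib.Cheb.FrobeniusDivision

/-!
# S59 / cell NM / leaf IHARA2, arithmetic input NE' for `(k, ρ̄)` (helper950)

`nePrimeK` is, verbatim, the body of `Fermat.Agent.S59.H62.NEPrimeKStatement`
(`S59/H62/Ihara2Spec.lean`, helper62): for an absolutely irreducible `ρ̄ : G_ℚ → GL₂(k)`, `k` a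
finite field of odd characteristic `p`, with Frobenius traces `a l` off `S ∋ p`, and a prime `q`:
for every `m ≥ 1` and every finite set `S'` there is a prime `l ∉ S ∪ S'`, `l ≡ 1 mod m`,
`l ≡ 1 mod p`, with `a l ≠ l + 1` in `k` and `q` not a `p`-th power modulo `l`.

Proof: port of `Fermat.Agent.S41.H45.neKummer_h45` (S41 block NE') with `E[p]` replaced by `ρ̄`:
Frobenius division (`Lib.Cheb.frobeniusDivision`) on the compositum of the level of `ρ̄`,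
`ℚ(ζ_{mp})` and `ℚ(β)`, `β ^ p = q ^ 2`; Cayley–Hamilton on the characteristic polynomials of
Frobenius elements; the trace trick `H45.unipotent_of_three_h45`; the abstract stable line lemma
`H701.exists_stable_line_of_eisenstein_h701`.
-/

set_option autoImplicit false

open Polynomial
open scoped TensorProduct

namespace Fermat.Agent.S59.H950

open Fermat.Agent.S41.H45

section Aux

variable {k : Type} [Field k]

/-- Cayley–Hamilton: an endomorphism with characteristic polynomial `X² - a X + l` satisfies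
`T² - a T + l = 0`. -/
theorem rel_of_charpoly_h950 {V : Type} [AddCommGroup V] [Module k V] [Module.Finite k V]
    (T : Module.End k V) (a l : k)
    (h : LinearMap.charpoly T = X ^ 2 - C a * X + C l) :
    T * T - a • T + l • (1 : Module.End k V) = 0 := by
  have h1 := LinearMap.aeval_self_charpoly T
  rw [h] at h1
  simp only [map_add, map_sub, map_mul, map_pow, aeval_X, aeval_C] at h1
  rw [← h1, pow_two, Algebra.algebraMap_eq_smul_one, Algebra.algebraMap_eq_smul_one,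
    smul_mul_assoc, one_mul]

/-- An absolutely irreducible `ρ̄` has no stable proper nonzero subspace over `k`. -/
theorem not_stable_of_absIrr_h950 (ρbar : ResidualGaloisRep k)
    (habs : ρbar.IsAbsolutelyIrreducible) (L : Submodule k ρbar.V) (hbot : L ≠ ⊥) (htop : L ≠ ⊤)
    (hstab : ∀ σ : AlgebraicClosure ℚ ≃ₐ[ℚ] AlgebraicClosure ℚ, ∀ v ∈ L, ρbar.ρ σ v ∈ L) :
    False := by
  obtain ⟨w, hwL, hw⟩ := Submodule.exists_mem_ne_zero_of_ne_bot hbot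
  have hlt : Module.finrank k L < Module.finrank k ρbar.V := Submodule.finrank_lt htop
  rw [ρbar.finrank_eq] at hlt
  have hpos : 0 < Module.finrank k L := by
    rw [Module.finrank_pos_iff_exists_ne_zero]
    exact ⟨⟨w, hwL⟩, fun h => hw (congrArg Subtype.val h)⟩
  have hone : Module.finrank k L = 1 := by omega
  have hw' : (⟨w, hwL⟩ : L) ≠ 0 := fun h => hw (congrArg Subtype.val h)
  have hspan := (finrank_eq_one_iff_of_nonzero' (⟨w, hwL⟩ : L) hw').mp hone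
  have hline : ∀ σ : AlgebraicClosure ℚ ≃ₐ[ℚ] AlgebraicClosure ℚ, ∃ c : k,
      ρbar.ρ σ w = c • w := by
    intro σ
    obtain ⟨c, hc⟩ := hspan ⟨ρbar.ρ σ w, hstab σ w hwL⟩
    exact ⟨c, (congrArg Subtype.val hc).symm⟩
  let x : AlgebraicClosure k ⊗[k] ρbar.V := (1 : AlgebraicClosure k) ⊗ₜ[k] w
  have hx : x ≠ 0 := by
    intro h
    apply hw
    have hinj := Module.Flat.tensorProduct_mk_injective k ρbar.V (AlgebraicClosure k)
    apply hinj
    rw [map_zero]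
    exact h
  let W : Submodule (AlgebraicClosure k) (AlgebraicClosure k ⊗[k] ρbar.V) :=
    Submodule.span (AlgebraicClosure k) {x}
  have hWstab : ∀ σ : AlgebraicClosure ℚ ≃ₐ[ℚ] AlgebraicClosure ℚ, ∀ y ∈ W,
      (ρbar.baseChange (AlgebraicClosure k)).ρ σ y ∈ W := by
    intro σ y hy
    obtain ⟨b, rfl⟩ := Submodule.mem_span_singleton.1 hy
    obtain ⟨c, hc⟩ := hline σ
    have e : (ρbar.baseChange (AlgebraicClosure k)).ρ σ x =
        (algebraMap k (AlgebraicClosure k) c) • x := by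
      show (ρbar.ρ σ).baseChange (AlgebraicClosure k) ((1 : AlgebraicClosure k) ⊗ₜ[k] w) = _
      rw [LinearMap.baseChange_tmul, hc, TensorProduct.tmul_smul, algebraMap_smul]
    rw [map_smul, e]
    exact Submodule.smul_mem _ _ (Submodule.smul_mem _ _ (Submodule.mem_span_singleton_self x))
  rcases habs W hWstab with h | h
  · exact hx (Submodule.span_singleton_eq_bot.1 h)
  · have h1 : Module.finrank (AlgebraicClosure k) W = 2 := by
      rw [h, finrank_top, Module.finrank_baseChange, ρbar.finrank_eq]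
    have h2 : Module.finrank (AlgebraicClosure k) W = 1 := finrank_span_singleton hx
    omega

end Aux

section Chi

variable {M : ℕ} [NeZero M] {ζ : AlgebraicClosure ℚ} (hζ : IsPrimitiveRoot ζ M)

/-- An element of the kernel of `χ` fixes the `M`-th roots of unity. -/
theorem apply_root_of_chi_eq_one_h950 (s : AlgebraicClosure ℚ ≃ₐ[ℚ] AlgebraicClosure ℚ)
    (hs : hζ.autToPow ℚ s = 1) (t : AlgebraicClosure ℚ) (ht : t ^ M = 1) : s t = t := by
  have hζs : s ζ = ζ := by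
    have h := hζ.autToPow_spec ℚ s
    rw [hs, Units.val_one] at h
    rw [← h]
    rcases Nat.lt_or_ge 1 M with h1 | h1
    · have : Fact (1 < M) := ⟨h1⟩
      rw [ZMod.val_one, pow_one]
    · have hM : M = 1 := le_antisymm h1 (Nat.pos_of_ne_zero (NeZero.ne M))
      subst hM
      have := hζ.pow_eq_one
      rw [pow_one] at this
      rw [this, one_pow]
  obtain ⟨i, -, rfl⟩ := hζ.eq_pow_of_pow_eq_one ht
  rw [map_pow, hζs]

/-- The Kummer character is multiplicative on the kernel of `χ`. -/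
theorem kummer_mul_h950 {p : ℕ} (hpM : p ∣ M) (a : ℚ) (β : AlgebraicClosure ℚ) (hβ0 : β ≠ 0)
    (hβ : β ^ p = algebraMap ℚ (AlgebraicClosure ℚ) a)
    (s t : AlgebraicClosure ℚ ≃ₐ[ℚ] AlgebraicClosure ℚ) (hs : hζ.autToPow ℚ s = 1) :
    (s * t) β = (s β / β) * (t β / β) * β := by
  have hκ : (t β / β) ^ M = 1 := by
    obtain ⟨k, rfl⟩ := hpM
    rw [pow_mul, div_pow, ← map_pow, hβ, AlgEquiv.commutes, div_self, one_pow]
    rw [← hβ]
    exact pow_ne_zero p hβ0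
  have h1 := apply_root_of_chi_eq_one_h950 hζ s hs _ hκ
  have h2 : t β = (t β / β) * β := by field_simp
  rw [AlgEquiv.mul_apply, h2, map_mul, h1]
  field_simp

end Chi

/-- **NE' for `(k, ρ̄)`** — verbatim the body of `Fermat.Agent.S59.H62.NEPrimeKStatement`. -/
theorem nePrimeK
    (p : ℕ) [Fact p.Prime] (_hp2 : p ≠ 2) (k : Type) [Field k] [Finite k] [CharP k p]
    (ρbar : ResidualGaloisRep k) (_habs : ρbar.IsAbsolutelyIrreducible)
    (_hsplit : ∀ σ : AlgebraicClosure ℚ ≃ₐ[ℚ] AlgebraicClosure ℚ,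
      ∃ α β : k, LinearMap.charpoly (ρbar.ρ σ) = (X - C α) * (X - C β))
    (S : Finset ℕ) (_hpS : p ∈ S) (a : ℕ → k)
    (_ha : ∀ (l : ℕ), l.Prime → l ∉ S →
      ∀ B : ValuationSubring Fermat.Agent.S31.Qb, B.LiesOverPrime l →
        ∀ σ : Fermat.Agent.S31.GQ, B.IsFrobeniusAt σ l →
          LinearMap.charpoly (ρbar.ρ σ) = X ^ 2 - C (a l) * X + C ((l : k)))
    (q : ℕ) (_hq : q.Prime) (_hqp : q ≠ p) (m : ℕ) (_hm : 0 < m) (S' : Finset ℕ) :
    ∃ l : ℕ, l.Prime ∧ l ∉ S ∧ l ∉ S' ∧ l ≡ 1 [MOD m] ∧ l ≡ 1 [MOD p] ∧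
      a l ≠ (l : k) + 1 ∧ ¬ (q ^ ((l - 1) / p) ≡ 1 [MOD l]) := by
  by_contra hcon
  classical
  have hp : p.Prime := Fact.out
  have hcon' : ∀ ℓ : ℕ, ℓ.Prime → ℓ ∉ S → ℓ ∉ S' → ℓ ≡ 1 [MOD m] → ℓ ≡ 1 [MOD p] →
      ¬ (q ^ ((ℓ - 1) / p) ≡ 1 [MOD ℓ]) → a ℓ = (ℓ : k) + 1 := by
    intro ℓ h1 h2 h3 h4 h5 h6
    by_contra h7
    exact hcon ⟨ℓ, h1, h2, h3, h4, h5, h7, h6⟩
  have hMpos : 0 < m * p := Nat.mul_pos _hm hp.pos
  have : NeZero (m * p) := ⟨hMpos.ne'⟩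
  obtain ⟨ζ, hζ⟩ := HasEnoughRootsOfUnity.exists_primitiveRoot (AlgebraicClosure ℚ) (m * p)
  obtain ⟨L₁, hL₁fin, hL₁⟩ := ρbar.factorsThroughFiniteLevel
  obtain ⟨L₂, hL₂fin, hL₂⟩ := rootField_h45 (m * p) hMpos
  obtain ⟨β, σ₀, hβ, hs₁β⟩ := exists_commutator_moving_h45 hp _hp2 _hq
  set s₁ : AlgebraicClosure ℚ ≃ₐ[ℚ] AlgebraicClosure ℚ :=
    σ₀ * complexConjugation * σ₀⁻¹ * complexConjugation⁻¹ with hs₁
  have hq0 : (q : AlgebraicClosure ℚ) ≠ 0 := by exact_mod_cast _hq.ne_zero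
  have hβ0 : β ≠ 0 := by
    rintro rfl
    rw [zero_pow hp.ne_zero] at hβ
    exact pow_ne_zero 2 hq0 hβ.symm
  have hβ' : β ^ p = algebraMap ℚ (AlgebraicClosure ℚ) ((q : ℚ) ^ 2) := by
    rw [hβ, map_pow, map_natCast]
  have hL₃fin : FiniteDimensional ℚ
      ↥(IntermediateField.adjoin ℚ ({β} : Set (AlgebraicClosure ℚ))) :=
    IntermediateField.adjoin.finiteDimensional (isAlgebraic_Qb_h45.isAlgebraic β).isIntegral
  set L₃ := IntermediateField.adjoin ℚ ({β} : Set (AlgebraicClosure ℚ)) with hL₃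
  have hβL₃ : β ∈ L₃ := IntermediateField.subset_adjoin ℚ _ (Set.mem_singleton β)
  have hpM : p ∣ m * p := Dvd.intro_left m rfl
  have hL₁₂fin : FiniteDimensional ℚ ↥(L₁ ⊔ L₂) := IntermediateField.finiteDimensional_sup L₁ L₂
  have hLfin : FiniteDimensional ℚ ↥(L₁ ⊔ L₂ ⊔ L₃) :=
    IntermediateField.finiteDimensional_sup (L₁ ⊔ L₂) L₃
  have hL₁le : L₁ ≤ L₁ ⊔ L₂ ⊔ L₃ := le_sup_left.trans le_sup_left
  have hζL : ζ ∈ L₁ ⊔ L₂ ⊔ L₃ :=
    (le_sup_right.trans le_sup_left : L₂ ≤ L₁ ⊔ L₂ ⊔ L₃) (hL₂ ζ hζ.pow_eq_one)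
  have hβL : β ∈ L₁ ⊔ L₂ ⊔ L₃ := (le_sup_right : L₃ ≤ L₁ ⊔ L₂ ⊔ L₃) hβL₃
  have h2 : (2 : k) ≠ 0 := by
    intro h
    have h' : ((2 : ℕ) : k) = 0 := by exact_mod_cast h
    rw [CharP.cast_eq_zero_iff k p] at h'
    exact _hp2 ((Nat.prime_dvd_prime_iff_eq hp Nat.prime_two).mp h')
  have hdim : Module.finrank k ρbar.V = 2 := ρbar.finrank_eq
  -- `ρ̄` only depends on the restriction to `L₁`
  have hρL : ∀ σ τ : AlgebraicClosure ℚ ≃ₐ[ℚ] AlgebraicClosure ℚ,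
      (∀ x ∈ L₁, τ x = σ x) → ρbar.ρ σ = ρbar.ρ τ := by
    intro σ τ hστ
    have h1 : ρbar.ρ (σ⁻¹ * τ) = 1 := by
      apply hL₁
      intro x hx
      rw [AlgEquiv.mul_apply, hστ x hx]
      exact σ.symm_apply_apply x
    have h3 : τ = σ * (σ⁻¹ * τ) := by group
    rw [h3, map_mul, h1, mul_one]
  -- the reduction `(ℤ/mp)ˣ → kˣ`
  set ε : (ZMod (m * p))ˣ →* kˣ := Units.map (ZMod.castHom hpM k : ZMod (m * p) →* k) with hε
  have hεval : ∀ u : (ZMod (m * p))ˣ, ((ε u : kˣ) : k) = ZMod.castHom hpM k (u : ZMod (m * p)) := by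
    intro u
    rfl
  -- the data of a Frobenius element attached to `σ`
  have hFrob : ∀ σ : AlgebraicClosure ℚ ≃ₐ[ℚ] AlgebraicClosure ℚ,
      ∃ (ℓ : ℕ) (A : ValuationSubring (AlgebraicClosure ℚ))
        (τ : AlgebraicClosure ℚ ≃ₐ[ℚ] AlgebraicClosure ℚ) (i j : ℕ),
        ℓ.Prime ∧ ℓ ∉ S ∧ ℓ ∉ S' ∧ ℓ ≠ p ∧ ℓ ≠ q ∧
        A.LiesOverPrime ℓ ∧ A.IsFrobeniusAt τ ℓ ∧
        ((hζ.autToPow ℚ τ : (ZMod (m * p))ˣ) : ZMod (m * p)) = (ℓ : ZMod (m * p)) ∧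
        ρbar.ρ σ = ρbar.ρ τ ^ j ∧ hζ.autToPow ℚ σ = hζ.autToPow ℚ τ ^ j ∧
        hζ.autToPow ℚ τ = hζ.autToPow ℚ σ ^ i ∧ (τ ^ j) β = σ β := by
    intro σ
    obtain ⟨ℓ, A, τ, i, j, hℓ, hℓS, hA, hτ, -, hi, hj⟩ :=
      Fermat.Agent.Lib.Cheb.frobeniusDivision (L₁ ⊔ L₂ ⊔ L₃) hLfin σ
        (S ∪ S' ∪ {p} ∪ {q} ∪ (m * p).primeFactors)
    simp only [Finset.mem_union, Finset.mem_singleton, not_or] at hℓS
    obtain ⟨⟨⟨⟨hℓS, hℓS'⟩, hℓp⟩, hℓq⟩, hℓM⟩ := hℓS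
    have hℓM' : ¬ ℓ ∣ m * p := by
      intro hdvd
      apply hℓM
      rw [Nat.mem_primeFactors]
      exact ⟨hℓ, hdvd, hMpos.ne'⟩
    refine ⟨ℓ, A, τ, i, j, hℓ, hℓS, hℓS', hℓp, hℓq, hA, hτ,
      chi_frob_h45 hζ hℓ hℓM' A τ hA hτ, ?_, ?_, ?_, hj β hβL⟩
    · rw [← map_pow]
      exact hρL σ (τ ^ j) (fun x hx => hj x (hL₁le hx))
    · rw [← map_pow]
      exact chi_eq_of_apply_eq_h45 hζ σ (τ ^ j) (hj ζ hζL).symm
    · rw [← map_pow]
      exact chi_eq_of_apply_eq_h45 hζ τ (σ ^ i) (hi ζ hζL)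
  -- the Frobenius relation
  have hrel : ∀ (ℓ : ℕ) (A : ValuationSubring (AlgebraicClosure ℚ))
      (τ : AlgebraicClosure ℚ ≃ₐ[ℚ] AlgebraicClosure ℚ), ℓ.Prime → ℓ ∉ S →
      A.LiesOverPrime ℓ → A.IsFrobeniusAt τ ℓ →
      ρbar.ρ τ * ρbar.ρ τ - a ℓ • ρbar.ρ τ + (ℓ : k) • (1 : Module.End k ρbar.V) = 0 :=
    fun ℓ A τ hℓ hℓS hA hτ => rel_of_charpoly_h950 _ _ _ (_ha ℓ hℓ hℓS A hA τ hτ)
  -- elements of `ker χ` moving `β` are unipotent
  have hU : ∀ s : AlgebraicClosure ℚ ≃ₐ[ℚ] AlgebraicClosure ℚ, hζ.autToPow ℚ s = 1 → s β ≠ β →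
      (ρbar.ρ s - 1) * (ρbar.ρ s - 1) = 0 := by
    intro s hs hsβ
    obtain ⟨ℓ, A, τ, i, j, hℓ, hℓS, hℓS', hℓp, hℓq, hA, hτ, hχτ, hρ, -, hχi, hjβ⟩ := hFrob s
    have hτ1 : hζ.autToPow ℚ τ = 1 := by rw [hχi, hs, one_pow]
    rw [hτ1, Units.val_one] at hχτ
    have hmod : ℓ ≡ 1 [MOD m * p] := by
      rw [← ZMod.natCast_eq_natCast_iff, ← hχτ, Nat.cast_one]
    have hmodm : ℓ ≡ 1 [MOD m] := Nat.ModEq.of_mul_right p hmod
    have hmodp : ℓ ≡ 1 [MOD p] := Nat.ModEq.of_mul_left m hmod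
    have hpℓ : p ∣ ℓ - 1 := (Nat.modEq_iff_dvd' hℓ.one_le).mp hmodp.symm
    have hτβ : τ β ≠ β := by
      intro h
      apply hsβ
      rw [← hjβ]
      clear hjβ hρ
      induction j with
      | zero => simp
      | succ n ih => rw [pow_succ, AlgEquiv.mul_apply, h, ih]
    have hK := not_modEq_of_frob_h45 hp _hq hℓ hℓp hℓq hpℓ A τ hA hτ β hβ hτβ
    have haℓ := hcon' ℓ hℓ hℓS hℓS' hmodm hmodp hK
    have h3 : ((ℓ : ℕ) : k) = 1 := by
      have := (CharP.natCast_eq_natCast k p).mpr hmodp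
      simpa using this
    have hr := hrel ℓ A τ hℓ hℓS hA hτ
    rw [haℓ, h3, one_smul] at hr
    have hτu : (ρbar.ρ τ - 1) * (ρbar.ρ τ - 1) = 0 := by
      rw [← hr, add_smul, one_smul]; noncomm_ring
    rw [hρ]
    exact Fermat.Agent.S41.H701.sq_zero_pow_sub_one_h701 _ hτu j
  have hcc : hζ.autToPow ℚ complexConjugation = -1 := chi_complexConjugation_h45 hζ
  have hs₁χ : hζ.autToPow ℚ s₁ = 1 := by
    rw [hs₁, map_mul, map_mul, map_mul, map_inv, map_inv, hcc]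
    simp
  -- all elements of `ker χ` are unipotent
  have hUall : ∀ σ : AlgebraicClosure ℚ ≃ₐ[ℚ] AlgebraicClosure ℚ, hζ.autToPow ℚ σ = 1 →
      (ρbar.ρ σ - 1) * (ρbar.ρ σ - 1) = 0 := by
    intro σ hσ
    by_cases hσβ : σ β = β
    · have hκ1 : s₁ β / β ≠ 1 := fun h => hs₁β ((div_eq_one_iff_eq hβ0).mp h)
      have hκp : (s₁ β / β) ^ p = 1 := by
        rw [div_pow, ← map_pow, hβ', AlgEquiv.commutes, div_self]
        rw [← hβ']
        exact pow_ne_zero p hβ0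
      have hκ2 : (s₁ β / β) ^ 2 ≠ 1 := by
        intro h
        obtain ⟨t, ht⟩ := (hp.eq_two_or_odd'.resolve_left _hp2)
        apply hκ1
        have : (s₁ β / β) ^ p = (s₁ β / β) := by
          rw [ht, pow_succ, pow_mul, h, one_pow, one_mul]
        rw [← this, hκp]
      have e1 : (σ * s₁) β = (s₁ β / β) * β := by
        rw [kummer_mul_h950 hζ hpM _ β hβ0 hβ' σ s₁ hσ, hσβ, div_self hβ0, one_mul]
      have e2 : (s₁ * s₁) β = (s₁ β / β) ^ 2 * β := by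
        rw [kummer_mul_h950 hζ hpM _ β hβ0 hβ' s₁ s₁ hs₁χ, sq]
      have e3 : (σ * (s₁ * s₁)) β = (s₁ β / β) ^ 2 * β := by
        rw [kummer_mul_h950 hζ hpM _ β hβ0 hβ' σ (s₁ * s₁) hσ, hσβ, div_self hβ0, one_mul, e2]
        field_simp
      have n1 : (σ * s₁) β ≠ β := by
        rw [e1]
        intro h
        apply hκ1
        field_simp at h ⊢
        exact h
      have n3 : (σ * (s₁ * s₁)) β ≠ β := by
        rw [e3]
        intro h
        apply hκ2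
        have h' : ((s₁ β / β) ^ 2 - 1) * β = 0 := by rw [sub_mul, h, one_mul, sub_self]
        rcases mul_eq_zero.mp h' with h'' | h''
        · exact sub_eq_zero.mp h''
        · exact absurd h'' hβ0
      have u1 := hU s₁ hs₁χ hs₁β
      have u2 := hU (σ * s₁) (by rw [map_mul, hσ, hs₁χ, one_mul]) n1
      have u3 := hU (σ * (s₁ * s₁)) (by rw [map_mul, map_mul, hσ, hs₁χ, one_mul, one_mul]) n3
      rw [map_mul] at u2
      rw [map_mul, map_mul] at u3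
      exact unipotent_of_three_h45 hdim (ρbar.ρ σ) (ρbar.ρ s₁) u1 u2 u3
    · exact hU σ hσ hσβ
  have hF : ∀ σ : AlgebraicClosure ℚ ≃ₐ[ℚ] AlgebraicClosure ℚ,
      ∃ (τ : AlgebraicClosure ℚ ≃ₐ[ℚ] AlgebraicClosure ℚ) (j : ℕ) (b : k),
        ρbar.ρ σ = ρbar.ρ τ ^ j ∧ hζ.autToPow ℚ σ = hζ.autToPow ℚ τ ^ j ∧
        (hζ.autToPow ℚ σ = 1 → hζ.autToPow ℚ τ = 1) ∧
        ρbar.ρ τ * ρbar.ρ τ - b • ρbar.ρ τ
          + ((ε (hζ.autToPow ℚ τ) : kˣ) : k) • (1 : Module.End k ρbar.V) = 0 ∧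
        (hζ.autToPow ℚ τ = 1 → b = 2) := by
    intro σ
    by_cases hσ : hζ.autToPow ℚ σ = 1
    · refine ⟨σ, 1, 2, (pow_one _).symm, (pow_one _).symm, fun h => h, ?_, fun _ => rfl⟩
      have hu := hUall σ hσ
      rw [hσ, map_one, Units.val_one, one_smul, two_smul, ← hu]
      noncomm_ring
    · obtain ⟨ℓ, A, τ, i, j, hℓ, hℓS, hℓS', hℓp, hℓq, hA, hτ, hχτ, hρ, hχj, -, -⟩ := hFrob σ
      refine ⟨τ, j, a ℓ, hρ, hχj, fun h => absurd h hσ, ?_, ?_⟩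
      · have hc : ((ε (hζ.autToPow ℚ τ) : kˣ) : k) = (ℓ : k) := by
          rw [hεval, hχτ, map_natCast]
        rw [hc]
        exact hrel ℓ A τ hℓ hℓS hA hτ
      · intro hτ1
        exfalso
        apply hσ
        rw [hχj, hτ1, one_pow]
  have hc2 : hζ.autToPow ℚ complexConjugation * hζ.autToPow ℚ complexConjugation = 1 := by
    rw [hcc]
    simp
  have hcε : ((ε (hζ.autToPow ℚ complexConjugation) : kˣ) : k) = -1 := by
    rw [hεval, hcc, Units.val_neg, Units.val_one, map_neg, map_one]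
  obtain ⟨L, hLbot, hLtop, hLstab⟩ :=
    Fermat.Agent.S41.H701.exists_stable_line_of_eisenstein_h701 h2 hdim ρbar.ρ
      (hζ.autToPow ℚ) ε hF complexConjugation hc2 hcε
  exact not_stable_of_absIrr_h950 ρbar _habs L hLbot hLtop hLstab

end Fermat.Agent.S59.H950
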