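import Fermat.Agent.S59.H563.OldSpec

/-!
# S59 / cell NM / leaf NM-OLD, sub-leaf OLD-INV (helper950)

`oldInvolution : H563.OldInvolutionStatement` — the involution `ι` (conjugation by `diag(1, -1)`)
on `Hom(Γ₀(n), ℂ)` commutes with the two degeneracy maps `r₁, r₂`.
-/

set_option autoImplicit false

open CongruenceSubgroup ModularCurve ModularCurve.Period
open scoped MatrixGroups

namespace Fermat.Agent.S59.H950

open Fermat.Agent.S41.Spec

/-- `ι` commutes with the inclusion `Γ₀(N q) → Γ₀(N)`. -/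
theorem incl_jConj_h950 (N q : ℕ) (γ : Gamma0 (N * q)) :
    incl N q (jConjGamma0 (N * q) γ) = jConjGamma0 N (incl N q γ) :=
  Subtype.ext rfl

/-- `ι` commutes with `c_δ : Γ₀(N q) → Γ₀(N)`. -/
theorem conjDelta_jConj_h950 (N q : ℕ) (γ : Gamma0 (N * q)) :
    conjDelta N q (jConjGamma0 (N * q) γ) = jConjGamma0 N (conjDelta N q γ) := by
  apply Subtype.ext
  apply Subtype.ext
  show conjDeltaMatrix q (jConjSL (γ : SL(2, ℤ))) =
    jConjMat (conjDeltaMatrix q (γ : SL(2, ℤ)))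
  have hdvd : (q : ℤ) ∣ (γ : SL(2, ℤ)) 1 0 := (dvd_of_mem_gamma0_mul γ).1
  have h10 : (-((γ : SL(2, ℤ)) 1 0)) / (q : ℤ) = -(((γ : SL(2, ℤ)) 1 0) / (q : ℤ)) :=
    Int.neg_ediv_of_dvd hdvd
  ext i j
  fin_cases i <;> fin_cases j
  · simp [conjDeltaMatrix, jConjMat]
  · simp [conjDeltaMatrix, jConjMat]
  · simp only [conjDeltaMatrix, jConjMat, Fin.mk_one, Fin.zero_eta, Matrix.of_apply,
      Matrix.cons_val', Matrix.cons_val_zero, Matrix.cons_val_one, Matrix.cons_val_fin_one]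
    show (jConjSL (γ : SL(2, ℤ))) 1 0 / (q : ℤ) = _
    have e : (jConjSL (γ : SL(2, ℤ))) 1 0 = -((γ : SL(2, ℤ)) 1 0) := by
      show jConjMat ((γ : SL(2, ℤ)) : Matrix (Fin 2) (Fin 2) ℤ) 1 0 = _
      simp
    rw [e, h10]
  · simp [conjDeltaMatrix, jConjMat]

/-- **OLD-INV.** -/
theorem oldInvolution : Fermat.Agent.S59.H563.OldInvolutionStatement := by
  intro N q φ
  constructor
  · refine AddMonoidHom.ext fun γ => ?_
    show φ (Additive.ofMul (incl N q (jConjGamma0 (N * q) (Additive.toMul γ)))) =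
      φ (Additive.ofMul (jConjGamma0 N (incl N q (Additive.toMul γ))))
    rw [incl_jConj_h950]
  · refine AddMonoidHom.ext fun γ => ?_
    show φ (Additive.ofMul (conjDelta N q (jConjGamma0 (N * q) (Additive.toMul γ)))) =
      φ (Additive.ofMul (jConjGamma0 N (conjDelta N q (Additive.toMul γ))))
    rw [conjDelta_jConj_h950]

end Fermat.Agent.S59.H950
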