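import Fermat.Agent.S59.H563.OldSpec
import Fermat.Agent.S21.H381.PeriodMap
import Fermat.Agent.S29.H201.PeriodHecke
import Fermat.Agent.S41.H761.HT

/-!
# S59 / cell NM / leaf NM-OLD, sub-leaf OLD-PER (helper950)

`oldPeriod : H563.OldPeriodStatement` — the period map is compatible with the two degeneracy
maps: `P(f at level N q) = r₁ P(f)` and `q • P(f(q τ)) = r₂ P(f)`.

Proof: if `F` is the equivariant primitive of `f`, then `F` is the one of `f` at level `N q`, and
`τ ↦ q⁻¹ F(q τ)` has derivative `f(q τ)` and limit `0` at `i∞`, hence is the equivariant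
primitive of `g = f(q ·)`; `δ γ = c_δ(γ) δ` (`S41.H761.diag_rel`).
-/

set_option autoImplicit false

open CongruenceSubgroup ModularCurve ModularCurve.Period UpperHalfPlane Filter Topology ModularForm
open scoped MatrixGroups ModularForm

namespace Fermat.Agent.S59.H950

open Fermat.Agent.S41.Spec Fermat.Agent.S21.H381

/-- `τ ↦ q τ` tends to `i∞` at `i∞`. -/
theorem tendsto_heckeDiag_smul_h950 {q : ℕ} (hq : q ≠ 0) :
    Tendsto (fun τ : ℍ => heckeDiagMatrix q • τ) atImInfty atImInfty := by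
  have hpos : (0 : ℝ) < q := by exact_mod_cast Nat.pos_of_ne_zero hq
  rw [atImInfty, tendsto_comap_iff]
  have him : ∀ τ : ℍ, (heckeDiagMatrix q • τ).im = q * τ.im := by
    intro τ
    have h := congrArg Complex.im (coe_heckeDiagMatrix_smul hq τ)
    simpa using h
  have : (UpperHalfPlane.im ∘ fun τ : ℍ => heckeDiagMatrix q • τ) = fun τ : ℍ => (q : ℝ) * τ.im :=
    funext him
  rw [this]
  exact Tendsto.const_mul_atTop hpos tendsto_comap

/-- **OLD-PER.** -/
theorem oldPeriod : Fermat.Agent.S59.H563.OldPeriodStatement := by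
  intro N q _ _ f g
  have hq0 : q ≠ 0 := NeZero.ne q
  have hqC : (q : ℂ) ≠ 0 := by exact_mod_cast hq0
  obtain ⟨F, hF⟩ := exists_hasEquivariantPrimitive f
  constructor
  · intro hfg
    have hG : HasEquivariantPrimitive (N * q) g F := by
      refine ⟨fun τ => ?_, hF.2.1, fun γ => ?_, hF.2.2.2⟩
      · rw [hfg τ]
        exact hF.1 τ
      · obtain ⟨c, hc⟩ := hF.2.2.1 (incl N q γ)
        exact ⟨c, fun z => hc z⟩
    refine AddMonoidHom.ext fun γ => ?_
    obtain ⟨γ, rfl⟩ : ∃ γ' : Gamma0 (N * q), Additive.ofMul γ' = γ := ⟨Additive.toMul γ, rfl⟩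
    rw [periodMap_apply hG γ UpperHalfPlane.I]
    show _ = periodMap N f (Additive.ofMul (incl N q γ))
    rw [periodMap_apply hF (incl N q γ) UpperHalfPlane.I]
    rfl
  · intro hfg
    have : NeZero (N * q) := ⟨Nat.mul_ne_zero (NeZero.ne N) hq0⟩
    obtain ⟨G₀, hG₀⟩ := exists_hasEquivariantPrimitive g
    set G : ℍ → ℂ := fun τ => (q : ℂ)⁻¹ * F (heckeDiagMatrix q • τ) with hGdef
    have hdetpos : 0 < ((heckeDiagMatrix q : GL (Fin 2) ℝ) : Matrix (Fin 2) (Fin 2) ℝ).det := by
      have := ModularForm.det_heckeDiagMatrix_pos q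
      rwa [Matrix.GeneralLinearGroup.val_det_apply] at this
    have hGd : ∀ τ : ℍ, HasDerivAt (G ∘ ofComplex) (g τ) ↑τ := by
      intro τ
      have h1 := Fermat.Agent.S29.H201.hasDerivAt_comp_smul_GL hF.1 (heckeDiagMatrix q)
        hdetpos τ
      rw [slash_heckeDiagMatrix_apply 2 hq0] at h1
      have h2 := h1.const_mul ((q : ℂ)⁻¹)
      have e1 : (G ∘ ofComplex) =
          fun y => (q : ℂ)⁻¹ * ((fun w : ℍ => F (heckeDiagMatrix q • w)) ∘ ofComplex) y := by
        funext y
        rfl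
      have e2 : g τ = (q : ℂ)⁻¹ * ((q : ℂ) ^ ((2 : ℤ) - 1) * f (heckeDiagMatrix q • τ)) := by
        rw [hfg τ, show (2 : ℤ) - 1 = 1 by norm_num, zpow_one, ← mul_assoc,
          inv_mul_cancel₀ hqC, one_mul]
      rw [e1, e2]
      exact h2
    have hG0 : Tendsto G atImInfty (𝓝 0) := by
      have h := (hF.2.1.comp (tendsto_heckeDiag_smul_h950 hq0)).const_mul ((q : ℂ)⁻¹)
      rw [mul_zero] at h
      exact h
    have hEq : G₀ = G := by
      funext z
      have hconst : ∀ w : ℍ, G₀ w - G w = G₀ z - G z := fun w =>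
        sub_const_of_hasDerivAt hG₀.1 hGd w z
      have h1 : Tendsto (fun w : ℍ => G₀ w - G w) atImInfty (𝓝 (0 - 0)) := hG₀.2.1.sub hG0
      have h2 : Tendsto (fun w : ℍ => G₀ w - G w) atImInfty (𝓝 (G₀ z - G z)) := by
        have : (fun w : ℍ => G₀ w - G w) = fun _ => G₀ z - G z := funext hconst
        rw [this]
        exact tendsto_const_nhds
      have := tendsto_nhds_unique h1 h2
      rw [sub_zero] at this
      exact sub_eq_zero.mp this.symm
    refine AddMonoidHom.ext fun γ => ?_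
    obtain ⟨γ, rfl⟩ : ∃ γ' : Gamma0 (N * q), Additive.ofMul γ' = γ := ⟨Additive.toMul γ, rfl⟩
    rw [AddMonoidHom.smul_apply, periodMap_apply hG₀ γ UpperHalfPlane.I, hEq]
    show _ = periodMap N f (Additive.ofMul (conjDelta N q γ))
    rw [periodMap_apply hF (conjDelta N q γ) (heckeDiagMatrix q • UpperHalfPlane.I)]
    have key : heckeDiagMatrix q • ((γ : SL(2, ℤ)) • UpperHalfPlane.I) =
        ((conjDelta N q γ : Gamma0 N) : SL(2, ℤ)) • (heckeDiagMatrix q • UpperHalfPlane.I) := by
      rw [Fermat.Agent.S29.H201.SL_smul_eq_mapGL_smul, Fermat.Agent.S29.H201.SL_smul_eq_mapGL_smul,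
        ← mul_smul, ← mul_smul]
      congr 1
      exact Fermat.Agent.S41.H761.diag_rel hq0 γ
    simp only [hGdef, key, smul_eq_mul]
    field_simp
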